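/-
helper11 (P-ES, row 411 "S31-LEVEL"): finite level of the torsion of `Pic⁰` of a Laurent base
change.

Let `L / ℚ` be an algebraic field extension, `F₀ ⊆ ℚ((q))` a field and
`F = L · F₀ ⊆ L((q))` (`ModularCurve.laurentBaseChange L F₀`).  The group `Aut(L / ℚ)` acts on
`Pic⁰(F)` through its action on the coefficients of `q`-expansions.

* `h11_exists_fixing_field` : every `f ∈ F` is fixed by the automorphisms which fix a suitable
  finite subextension `E / ℚ` of `L` pointwise.
* `h11_smul_mk_eq_of_smul_eq` : if `m • D = div f` with `m > 0` and `g • f = f`, then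
  `g • D = D` (divisors are torsion free), hence `g` fixes the class of `D`.
* `h11_exists_fixing_field_of_nsmul_eq_zero` : every torsion class is fixed by the automorphisms
  fixing a suitable finite subextension.
* `h11_torsionLevel_of_finite` : if the `m`-torsion is finite, one finite subextension works for
  all classes killed by `m`.
-/
import Fermat.Prelude.Def_ModularCurve_ArithmeticGalois
import Mathlib.FieldTheory.IntermediateField.Adjoin.Algebra
import Mathlib.FieldTheory.IntermediateField.Adjoin.Basic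

set_option autoImplicit false

noncomputable section

open AlgebraicCurve ModularCurve IntermediateField

namespace Fermat.Agent.H11

section Abstract

variable {K F : Type*} [Field K] [Field F] [Algebra K F]

/-- If `g` fixes `f`, then `f` has the same order at `w` and at `g⁻¹ • w`. -/
theorem h11_ord_inv_smul_of_smul_eq (g : SemilinearAut K F) (f : F) (hgf : g • f = f)
    (w : Place K F) : (g⁻¹ • w).ord f = w.ord f := by
  have h := SemilinearAut.ord_smul g (g⁻¹ • w) f
  rw [smul_inv_smul, hgf] at h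
  exact h.symm

/-- If `m • D = div f` with `m ≠ 0` and `g` fixes `f`, then `g` fixes the divisor `D`. -/
theorem h11_divisor_smul_eq_of_smul_eq (g : SemilinearAut K F) (D : Divisor K F) (m : ℤ)
    (hm : m ≠ 0) (f : F) (hfD : ∀ P : Place K F, m * D P = P.ord f) (hgf : g • f = f) :
    g • D = D := by
  refine Finsupp.ext fun w => ?_
  rw [SemilinearAut.divisor_smul_apply]
  have h1 := hfD (g⁻¹ • w)
  rw [h11_ord_inv_smul_of_smul_eq g f hgf w, ← hfD w] at h1
  exact mul_left_cancel₀ hm h1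

/-- If `m • D = div f` with `m ≠ 0` and `g` fixes `f`, then `g` fixes the class of `D`. -/
theorem h11_smul_mk_eq_of_smul_eq (g : SemilinearAut K F)
    (D : Divisor.degZero (K := K) (F := F)) (m : ℤ) (hm : m ≠ 0) (f : F)
    (hfD : ∀ P : Place K F, m * (D : Divisor K F) P = P.ord f) (hgf : g • f = f) :
    g • Pic0.mk D = Pic0.mk D := by
  rw [SemilinearAut.pic0_smul_mk]
  refine congrArg Pic0.mk (Subtype.ext ?_)
  rw [SemilinearAut.coe_degZeroSMulHom]
  exact h11_divisor_smul_eq_of_smul_eq g (D : Divisor K F) m hm f hfD hgf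

/-- A class killed by `m` is the class of a divisor `D` with `m • D` principal. -/
theorem h11_exists_function_of_zsmul_eq_zero (D : Divisor.degZero (K := K) (F := F)) (m : ℤ)
    (h : m • Pic0.mk D = 0) :
    ∃ f : F, f ≠ 0 ∧ ∀ P : Place K F, m * (D : Divisor K F) P = P.ord f := by
  have h1 : (Pic0.mk (m • D) : Pic0 K F) = 0 := h
  have h2 : m • D ∈ (Divisor.principal (K := K) (F := F)).addSubgroupOf
      (Divisor.degZero (K := K) (F := F)) :=
    (QuotientAddGroup.eq_zero_iff (m • D)).mp h1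
  rw [AddSubgroup.mem_addSubgroupOf] at h2
  obtain ⟨f, hf, hfD⟩ := h2
  refine ⟨f, hf, fun P => ?_⟩
  rw [← hfD P]
  simp

/-- A semilinear automorphism which fixes a function `f` with `div f = m • D`, `m ≠ 0`, fixes
every class killed by `m` represented by such a `D`: existence form. -/
theorem h11_exists_function_fixing (x : Pic0 K F) (m : ℤ) (hm : m ≠ 0) (h : m • x = 0) :
    ∃ f : F, f ≠ 0 ∧ ∀ g : SemilinearAut K F, g • f = f → g • x = x := by
  obtain ⟨D, rfl⟩ := Pic0.mk_surjective x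
  obtain ⟨f, hf, hfD⟩ := h11_exists_function_of_zsmul_eq_zero D m h
  exact ⟨f, hf, fun g hgf => h11_smul_mk_eq_of_smul_eq g D m hm f hfD hgf⟩

end Abstract

section Laurent

variable {L : Type*} [Field L] [Algebra ℚ L]
variable (F₀ : IntermediateField ℚ (LaurentSeries ℚ))

/-- Every element of `L · F₀` has its coefficients "in a finite subextension": it is fixed by
the automorphisms of `L` which fix a suitable finite subextension pointwise. -/
theorem h11_exists_fixing_field [Algebra.IsAlgebraic ℚ L] {f : LaurentSeries L}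
    (hf : f ∈ laurentBaseChange L F₀) :
    ∃ E : IntermediateField ℚ L, FiniteDimensional ℚ E ∧
      ∀ σ : L ≃ₐ[ℚ] L, (∀ x ∈ E, σ x = x) → coeffMap (σ : L →+* L) f = f := by
  rw [mem_laurentBaseChange_iff] at hf
  induction hf using Subfield.closure_induction with
  | mem y hy =>
      rcases hy with ⟨a, rfl⟩ | ⟨z, _, rfl⟩
      · refine ⟨ℚ⟮a⟯, IntermediateField.adjoin.finiteDimensional
          (Algebra.IsIntegral.isIntegral a), fun σ hσ => ?_⟩
        rw [coeffMap_algebraMap]
        exact congrArg _ (hσ a (IntermediateField.mem_adjoin_simple_self ℚ a))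
      · exact ⟨⊥, inferInstance, fun σ _ => coeffMap_coeffEmb σ z⟩
  | one => exact ⟨⊥, inferInstance, fun σ _ => map_one _⟩
  | add x y _ _ hx hy =>
      obtain ⟨E₁, hE₁, h₁⟩ := hx
      obtain ⟨E₂, hE₂, h₂⟩ := hy
      refine ⟨E₁ ⊔ E₂, IntermediateField.finiteDimensional_sup E₁ E₂, fun σ hσ => ?_⟩
      rw [map_add, h₁ σ fun x hx => hσ x ((le_sup_left : E₁ ≤ E₁ ⊔ E₂) hx),
        h₂ σ fun x hx => hσ x ((le_sup_right : E₂ ≤ E₁ ⊔ E₂) hx)]
  | neg x _ hx =>
      obtain ⟨E₁, hE₁, h₁⟩ := hx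
      exact ⟨E₁, hE₁, fun σ hσ => by rw [map_neg, h₁ σ hσ]⟩
  | inv x _ hx =>
      obtain ⟨E₁, hE₁, h₁⟩ := hx
      exact ⟨E₁, hE₁, fun σ hσ => by rw [map_inv₀, h₁ σ hσ]⟩
  | mul x y _ _ hx hy =>
      obtain ⟨E₁, hE₁, h₁⟩ := hx
      obtain ⟨E₂, hE₂, h₂⟩ := hy
      refine ⟨E₁ ⊔ E₂, IntermediateField.finiteDimensional_sup E₁ E₂, fun σ hσ => ?_⟩
      rw [map_mul, h₁ σ fun x hx => hσ x ((le_sup_left : E₁ ≤ E₁ ⊔ E₂) hx),
        h₂ σ fun x hx => hσ x ((le_sup_right : E₂ ≤ E₁ ⊔ E₂) hx)]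

/-- The same for the action of `arithmeticGalois` on the function field. -/
theorem h11_exists_fixing_field_smul [Algebra.IsAlgebraic ℚ L] (f : laurentBaseChange L F₀) :
    ∃ E : IntermediateField ℚ L, FiniteDimensional ℚ E ∧
      ∀ σ : L ≃ₐ[ℚ] L, (∀ x ∈ E, σ x = x) → arithmeticGalois F₀ σ • f = f := by
  obtain ⟨E, hE, h⟩ := h11_exists_fixing_field F₀ f.2
  refine ⟨E, hE, fun σ hσ => Subtype.ext ?_⟩
  rw [coe_arithmeticGalois_smul]
  exact h σ hσ

/-- **Open stabilisers of torsion classes**: a class of `Pic⁰(L · F₀)` killed by `m ≠ 0` is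
fixed by the automorphisms of `L` fixing a suitable finite subextension pointwise. -/
theorem h11_exists_fixing_field_of_zsmul_eq_zero [Algebra.IsAlgebraic ℚ L]
    (x : Pic0 L (laurentBaseChange L F₀)) (m : ℤ) (hm : m ≠ 0) (h : m • x = 0) :
    ∃ E : IntermediateField ℚ L, FiniteDimensional ℚ E ∧
      ∀ σ : L ≃ₐ[ℚ] L, (∀ x ∈ E, σ x = x) → σ • x = x := by
  obtain ⟨f, -, hfx⟩ := h11_exists_function_fixing x m hm h
  obtain ⟨E, hE, hEf⟩ := h11_exists_fixing_field_smul F₀ f
  refine ⟨E, hE, fun σ hσ => ?_⟩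
  rw [galois_smul_pic0_def]
  exact hfx _ (hEf σ hσ)

/-- The `ℕ`-scalar form. -/
theorem h11_exists_fixing_field_of_nsmul_eq_zero [Algebra.IsAlgebraic ℚ L]
    (x : Pic0 L (laurentBaseChange L F₀)) (m : ℕ) (hm : 0 < m) (h : m • x = 0) :
    ∃ E : IntermediateField ℚ L, FiniteDimensional ℚ E ∧
      ∀ σ : L ≃ₐ[ℚ] L, (∀ x ∈ E, σ x = x) → σ • x = x := by
  refine h11_exists_fixing_field_of_zsmul_eq_zero F₀ x (m : ℤ) (by exact_mod_cast hm.ne') ?_
  rw [Nat.cast_smul_eq_nsmul ℤ m x]
  exact h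

/-- **Finite level of the torsion**: if the `m`-torsion of `Pic⁰(L · F₀)` is finite, then it is
fixed by the automorphisms of `L` fixing a suitable finite subextension pointwise. -/
theorem h11_torsionLevel_of_finite [Algebra.IsAlgebraic ℚ L] (m : ℕ) (hm : 0 < m)
    [hfin : Finite ↥(Pic0.torsion L ↥(laurentBaseChange L F₀) m)] :
    ∃ E : IntermediateField ℚ L, FiniteDimensional ℚ E ∧
      ∀ σ : L ≃ₐ[ℚ] L, (∀ x ∈ E, σ x = x) →
        ∀ x : Pic0 L (laurentBaseChange L F₀), m • x = 0 → σ • x = x := by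
  have hx : ∀ x : ↥(Pic0.torsion L ↥(laurentBaseChange L F₀) m),
      ∃ E : IntermediateField ℚ L, FiniteDimensional ℚ E ∧
        ∀ σ : L ≃ₐ[ℚ] L, (∀ y ∈ E, σ y = y) →
          σ • (x : Pic0 L (laurentBaseChange L F₀)) = x := by
    intro x
    refine h11_exists_fixing_field_of_zsmul_eq_zero F₀ (x : Pic0 L (laurentBaseChange L F₀))
      (m : ℤ) (by exact_mod_cast hm.ne') ?_
    exact Pic0.mem_torsion.mp x.2
  choose E hE hEx using hx
  have : ∀ x, FiniteDimensional ℚ (E x) := hE
  refine ⟨⨆ x, E x, IntermediateField.finiteDimensional_iSup_of_finite, fun σ hσ x hmx => ?_⟩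
  have hxt : x ∈ Pic0.torsion L ↥(laurentBaseChange L F₀) m := by
    rw [Pic0.mem_torsion, Nat.cast_smul_eq_nsmul ℤ m x]
    exact hmx
  exact hEx ⟨x, hxt⟩ σ fun y hy => hσ y ((le_iSup E ⟨x, hxt⟩ : E ⟨x, hxt⟩ ≤ ⨆ x, E x) hy)

end Laurent

end Fermat.Agent.H11

end
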