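/-
helper11 (P-ES, row 411 "S31-LEVEL"): `Fermat.Agent.H14.TorsionLevelStatement N` —
the points of `J₀(N)(ℚ̄)` killed by `m > 0` are fixed by the Galois group of a number field.

Proof: `J₀(N)[m]` is finite (`Fermat.Agent.H23.EsA.finite_jTors`, ES-A + ES-B), and each
torsion class `[D]`, `m D = div f`, is fixed by every `σ` fixing `f`
(`Fermat.Agent.H11.h11_torsionLevel_of_finite`).
-/
import Fermat.Agent.H11.TorsionLevelCore
import Fermat.Agent.H14.S31JInterfaces
import Fermat.Agent.H23.EsA.JTors

set_option autoImplicit false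

open AlgebraicCurve ModularCurve

namespace Fermat.Agent.H11

/-- **Open stabilisers of the torsion points of `J₀(N)`**: every class killed by `m > 0` is fixed
by the Galois group of a number field (no finiteness input). -/
theorem h11_jZero_exists_fixing_field (N : ℕ) (x : JZero N) (m : ℕ) (hm : 0 < m)
    (h : m • x = 0) :
    ∃ E : IntermediateField ℚ (AlgebraicClosure ℚ), FiniteDimensional ℚ E ∧
      ∀ σ : AlgebraicClosure ℚ ≃ₐ[ℚ] AlgebraicClosure ℚ, (∀ y ∈ E, σ y = y) → σ • x = x :=
  have : Algebra.IsAlgebraic ℚ (AlgebraicClosure ℚ) := AlgebraicClosure.isAlgebraic ℚ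
  h11_exists_fixing_field_of_nsmul_eq_zero (modularFunctionFieldFull N) x m hm h

/-- **Row 411 (S31-LEVEL)**: `J₀(N)[m]` has finite level. -/
theorem h11_torsionLevelStatement (N : ℕ) [NeZero N] :
    Fermat.Agent.H14.TorsionLevelStatement N := by
  intro m hm
  have : Algebra.IsAlgebraic ℚ (AlgebraicClosure ℚ) := AlgebraicClosure.isAlgebraic ℚ
  have := Fermat.Agent.H23.EsA.finite_jTors N hm
  exact h11_torsionLevel_of_finite (modularFunctionFieldFull N) m hm

/-- The Galois representation on `J₀(N)[m]` factors through a finite level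
(the form needed for `ResidualGaloisRep` / row ES-G6). -/
theorem h11_torsionGaloisRep_factorsThroughFiniteLevel (N : ℕ) [NeZero N] (m : ℕ)
    (hm : 0 < m) : GaloisFactorsThroughFiniteLevel (JZero.torsionGaloisRep N m) := by
  obtain ⟨L, hL, h⟩ := h11_torsionLevelStatement N m hm
  refine ⟨L, hL, fun σ hσ => LinearMap.ext fun x => Subtype.ext ?_⟩
  rw [JZero.coe_torsionGaloisRep_apply]
  refine h σ hσ (x : JZero N) ?_
  rw [← Nat.cast_smul_eq_nsmul ℤ m (x : JZero N)]
  exact Pic0.mem_torsion.mp x.2

end Fermat.Agent.H11
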